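import Fermat.Agent.GAL.KN.Defs
import Fermat.Agent.GAL.KLB.Base

/-!
# GAL / KNC : the concrete side of route N.  Definitions (no sorry).
-/

set_option autoImplicit false

open ModularCurve AlgebraicCurve Polynomial

noncomputable section

namespace Fermat.Agent.GAL.KNC

open Fermat.Agent.GAL.KL Fermat.Agent.GAL.KN Fermat.Agent.GAL.KLC

/-- all zeros of `t - c` are simple. -/
def Simple (K : Type*) {F : Type*} [Field K] [Field F] [Algebra K F] (t : F) (c : K) : Prop :=
  ∀ P : Place K F, 0 < P.ord (t - algebraMap K F c) → P.ord (t - algebraMap K F c) = 1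

variable {K F k Γ₀ : Type*} [Field K] [Field F] [Algebra K F] [Field k]
  [LinearOrderedCommGroupWithZero Γ₀] {v : Valuation F Γ₀} {ρ : v.integer →+* LaurentSeries k}

/-- the reduction data of route N from a reduction map in the sense of `KLC.IsRed`. -/
def redDataOf (hρ : IsRed K v ρ) : RedData K v k (LaurentSeries k) where
  A := KLB.AK K v
  mem_A := fun _ => Iff.rfl
  res := KLB.resK hρ
  res_surj := KLB.resK_surjective hρ
  ρ := ρ
  ρ_eq_zero := hρ.ker
  ρ_alg := fun a h => by
    rw [ModularCurve.algebraMap_laurentSeries_eq_single]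
    exact KLB.rho_toInt' hρ a

theorem redDataOf_red (hρ : IsRed K v ρ) {x : F} (hx : x ∈ v.integer) :
    (redDataOf hρ).red x = ρ ⟨x, hx⟩ := by
  unfold RedData.red
  rw [dif_pos hx]
  rfl

end Fermat.Agent.GAL.KNC
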