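import Fermat.Agent.GAL.KN.Trace
import Fermat.Agent.GAL.CT.Sep

/-!
# GAL / KNC : the discriminant of an order in a separable extension is nonzero

`k` a field, `E ⊇ k` a field, `τ ∈ E`, `e` a basis of an order over `k[τ]` with structure constants `M`
(`KN.IsOrder`).  If every element of `E` which is integral over `k(τ)` is separable over `k(τ)`, then
`det (gram M) ≠ 0`.  For `E = k((q))`, `k` perfect and `ord_q τ = ∓ 1` the hypothesis holds
(`CT.a7_separable`).
-/

set_option autoImplicit false
noncomputable section

namespace Fermat.Agent.GAL.KNC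

open Polynomial Fermat.Agent.GAL.KL Fermat.Agent.GAL.KN Fermat.Agent.GAL.CT Fermat.Agent.S28

section Abstract

variable {k E : Type*} [Field k] [Field E] [Algebra k E] {n : ℕ} {τ : E} {e : Fin n → E}
  {M : Fin n → Matrix (Fin n) (Fin n) k[X]}

theorem det_gram_ne_zero_of_sep (O : IsOrder k τ e M)
    (hsep : ∀ z : E, IsIntegral (KT k τ) z → (minpoly (KT k τ) z).Separable) :
    (gram M).det ≠ 0 := by
  classical
  have hi : Function.Injective (evT k τ) := (injective_iff_map_eq_zero _).mpr O.inj
  let _ : Algebra k[X] (KT k τ) := (f1_cod (evT k τ)).toAlgebra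
  let _ : Algebra k[X] E := (evT k τ).toAlgebra
  have : IsScalarTower k[X] (KT k τ) E := IsScalarTower.of_algebraMap_eq fun _ => rfl
  have : IsFractionRing k[X] (KT k τ) := f1_isFractionRing (evT k τ) hi
  have hsmul : ∀ (a : k[X]) (x : E), algebraMap k[X] (KT k τ) a • x = aeval τ a * x :=
    fun a x => rfl
  -- linear independence
  have hli0 : LinearIndependent k[X] e := by
    rw [Fintype.linearIndependent_iff]
    intro g hg j
    exact congrFun (O.ind g hg) j
  have hli : LinearIndependent (KT k τ) e := hli0.localization (KT k τ) (nonZeroDivisors k[X])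
  -- the span is a subalgebra
  have hcomb : ∀ p : Fin n → k[X], comb k τ p e ∈ Submodule.span (KT k τ) (Set.range e) := by
    intro p
    refine Submodule.sum_mem _ fun j _ => ?_
    rw [← hsmul]
    exact Submodule.smul_mem _ _ (Submodule.subset_span ⟨j, rfl⟩)
  have h1 : (1 : E) ∈ Submodule.span (KT k τ) (Set.range e) := by
    obtain ⟨p, hp⟩ := O.one
    rw [hp]
    exact hcomb p
  have hmul : ∀ x y : E, x ∈ Submodule.span (KT k τ) (Set.range e) →
      y ∈ Submodule.span (KT k τ) (Set.range e) →
      x * y ∈ Submodule.span (KT k τ) (Set.range e) := by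
    intro x y hx hy
    have h2 : Submodule.span (KT k τ) (Set.range e) * Submodule.span (KT k τ) (Set.range e) ≤
        Submodule.span (KT k τ) (Set.range e) := by
      rw [Submodule.span_mul_span, Submodule.span_le]
      rintro _ ⟨_, ⟨i, rfl⟩, _, ⟨j, rfl⟩, rfl⟩
      show e i * e j ∈ _
      rw [O.str i j]
      exact hcomb _
    exact h2 (Submodule.mul_mem_mul hx hy)
  let S : Subalgebra (KT k τ) E := (Submodule.span (KT k τ) (Set.range e)).toSubalgebra h1 hmul
  have hSmem : ∀ x : E, x ∈ S ↔ x ∈ Submodule.span (KT k τ) (Set.range e) := fun x => Iff.rfl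
  have hfin0 : Module.Finite (KT k τ) (Submodule.span (KT k τ) (Set.range e)) :=
    Module.Finite.span_of_finite _ (Set.finite_range e)
  have hfinS : Module.Finite (KT k τ) S := hfin0
  have hfield : IsField S := isField_of_isIntegral_of_isField' (Field.toIsField (KT k τ))
  let F' : IntermediateField (KT k τ) E := S.toIntermediateField' hfield
  have hFmem : ∀ x : E, x ∈ F' ↔ x ∈ Submodule.span (KT k τ) (Set.range e) := fun x => Iff.rfl
  let e' : Fin n → F' := fun j => ⟨e j, (hFmem _).mpr (Submodule.subset_span ⟨j, rfl⟩)⟩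
  have hli' : LinearIndependent (KT k τ) e' :=
    LinearIndependent.of_comp F'.val.toLinearMap hli
  have hsp' : ⊤ ≤ Submodule.span (KT k τ) (Set.range e') := by
    intro x _
    have hx : (x : E) ∈ (Submodule.span (KT k τ) (Set.range e')).map F'.val.toLinearMap := by
      rw [Submodule.map_span, ← Set.range_comp]
      exact (hFmem _).mp x.2
    obtain ⟨y, hy, hyx⟩ := hx
    have : y = x := Subtype.ext hyx
    rwa [← this]
  let b : Module.Basis (Fin n) (KT k τ) F' := Module.Basis.mk hli' hsp'
  have hb : ∀ j, b j = e' j := fun j => Module.Basis.mk_apply hli' hsp' j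
  have hfinF : Module.Finite (KT k τ) F' := Module.Finite.of_basis b
  have hsepF : Algebra.IsSeparable (KT k τ) F' := by
    refine ⟨fun z => ?_⟩
    have hz : IsIntegral (KT k τ) z := Algebra.IsIntegral.isIntegral z
    have hz' : IsIntegral (KT k τ) (z : E) := hz.map F'.val
    have := hsep (z : E) hz'
    rwa [← IntermediateField.minpoly_eq] at this
  have hdisc := Algebra.discr_not_zero_of_basis (KT k τ) b
  -- products in terms of the basis
  have hprod : ∀ i j, b i * b j = ∑ l, algebraMap k[X] (KT k τ) (M i j l) • b l := by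
    intro i j
    apply Subtype.ext
    rw [hb, hb]
    have h3 : ((∑ l, algebraMap k[X] (KT k τ) (M i j l) • b l : F') : E) =
        ∑ l, algebraMap k[X] (KT k τ) (M i j l) • e l := by
      rw [← IntermediateField.coe_val, map_sum]
      refine Finset.sum_congr rfl fun l _ => ?_
      rw [map_smul, hb]
      rfl
    rw [h3]
    exact O.str i j
  have htrb : ∀ l, Algebra.trace (KT k τ) F' (b l) = algebraMap k[X] (KT k τ) (M l).trace := by
    intro l
    rw [Algebra.trace_eq_matrix_trace b, Matrix.trace, Matrix.trace, map_sum]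
    refine Finset.sum_congr rfl fun i _ => ?_
    rw [Matrix.diag_apply, Matrix.diag_apply, Algebra.leftMulMatrix_eq_repr_mul, hprod,
      Module.Basis.repr_sum_self]
  have htr : Algebra.traceMatrix (KT k τ) b = (gram M).map (algebraMap k[X] (KT k τ)) := by
    refine Matrix.ext fun i j => ?_
    rw [Algebra.traceMatrix_apply, Algebra.traceForm_apply, hprod, map_sum, Matrix.map_apply, gram,
      trC, map_sum]
    refine Finset.sum_congr rfl fun l _ => ?_
    rw [map_smul, htrb, smul_eq_mul, map_mul]
  rw [Algebra.discr_def, htr, ← RingHom.mapMatrix_apply, ← RingHom.map_det] at hdisc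
  exact fun h => hdisc (by rw [h, map_zero])

/-- `k(τ⁻¹) = k(τ)`. -/
theorem KT_inv_le (τ : E) : KT k τ⁻¹ ≤ KT k τ := by
  rw [Subfield.closure_le]
  rintro _ ⟨p, rfl⟩
  show aeval τ⁻¹ p ∈ KT k τ
  have hτ : τ ∈ KT k τ := Subfield.subset_closure ⟨X, by simp⟩
  induction p using Polynomial.induction_on' with
  | add p q hp hq => rw [map_add]; exact add_mem hp hq
  | monomial m a =>
    rw [aeval_monomial]
    refine mul_mem (Subfield.subset_closure ⟨C a, by simp⟩) (pow_mem (inv_mem hτ) m)

theorem KT_inv (τ : E) : KT k τ⁻¹ = KT k τ := by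
  refine le_antisymm (KT_inv_le τ) ?_
  have := KT_inv_le (k := k) τ⁻¹
  rwa [inv_inv] at this

end Abstract

section Laurent

variable {k : Type*} [Field k] [PerfectField k] {n : ℕ} {τ : LaurentSeries k}
  {e : Fin n → LaurentSeries k} {M : Fin n → Matrix (Fin n) (Fin n) k[X]}

/-- elements of `k((q))` integral over `k(τ)`, `ord_q τ = -1`, are separable over `k(τ)`. -/
theorem separable_of_order_neg_one (hτ : τ.order = -1) (z : LaurentSeries k)
    (hz : IsIntegral (KT k τ) z) : (minpoly (KT k τ) z).Separable := by
  obtain ⟨p, hp⟩ := CharP.exists k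
  rcases CharP.char_is_prime_or_zero k p with hpp | rfl
  · have : Fact p.Prime := ⟨hpp⟩
    exact a7_separable p (AlgHom.id k (LaurentSeries k)) τ hτ z hz
  · have h0 : CharZero k := CharP.charP_to_charZero k
    have h1 : CharZero (LaurentSeries k) :=
      charZero_of_injective_algebraMap (algebraMap k (LaurentSeries k)).injective
    have h2 : CharZero (KT k τ) :=
      ⟨fun a b hab => Nat.cast_injective (R := LaurentSeries k) (by
        have := congrArg Subtype.val hab
        simpa using this)⟩
    exact (minpoly.irreducible hz).separable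

theorem separable_of_order (hτ : τ.order = -1 ∨ τ.order = 1) (z : LaurentSeries k)
    (hz : IsIntegral (KT k τ) z) : (minpoly (KT k τ) z).Separable := by
  rcases hτ with hτ | hτ
  · exact separable_of_order_neg_one hτ z hz
  · have hτ0 : τ ≠ 0 := by
      rintro rfl
      simp at hτ
    have h1 : (τ⁻¹).order = -1 := by
      have h3 := HahnSeries.order_mul hτ0 (inv_ne_zero hτ0)
      rw [mul_inv_cancel₀ hτ0, HahnSeries.order_one, hτ] at h3
      omega
    have h2 := separable_of_order_neg_one h1
    rw [KT_inv] at h2
    exact h2 z hz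

/-- **(b)** the discriminant of an order of a subfield of `k((q))` over `k[τ]`, `ord_q τ = ∓1`, is
nonzero. -/
theorem det_gram_ne_zero (hτ : τ.order = -1 ∨ τ.order = 1) (O : IsOrder k τ e M) :
    (gram M).det ≠ 0 :=
  det_gram_ne_zero_of_sep O (separable_of_order hτ)

end Laurent

end Fermat.Agent.GAL.KNC
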