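import Fermat.Agent.GAL.KN.Defs
import Fermat.Agent.GAL.KLC.ValThm

/-!
# GAL / KNC : the reduction data of the Gauss valuation of `FL ℚ̄ M`
-/

set_option autoImplicit false
noncomputable section

namespace Fermat.Agent.GAL.KNC

open Fermat.Agent.GR Fermat.Agent.GAL.KL Fermat.Agent.GAL.KLC

variable (A : ValuationSubring Qb) (M : ℕ)

theorem mem_iff_vG_le_one (a : Qb) : a ∈ A ↔ vG A M (algebraMap Qb (FL Qb M) a) ≤ 1 := by
  rw [ValThm_le_one_iff, ValThm_coe_algebraMap]
  exact ⟨fun h => ⟨_, hasRed_C A ⟨a, h⟩⟩, fun ⟨_, h⟩ => ValThm_mem_of_hasRed_C A h⟩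

theorem algebraMap_kA_eq_C (c : kA A) :
    algebraMap (kA A) (LaurentSeries (kA A)) c = HahnSeries.C c :=
  algebraMap_eq_C c

/-- the reduction data `(A, residue, rho)` of the Gauss valuation. -/
def redData : KN.RedData Qb (vG A M) (kA A) (LaurentSeries (kA A)) where
  A := A.toSubring
  mem_A := mem_iff_vG_le_one A M
  res := IsLocalRing.residue A
  res_surj := IsLocalRing.residue_surjective (R := A)
  ρ := rho A M
  ρ_eq_zero := (isRed A M).ker
  ρ_alg a h := by
    rw [algebraMap_kA_eq_C]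
    apply rho_eq_of_hasRed
    show HasRed A ((algebraMap Qb (FL Qb M) (a : Qb) : FL Qb M) : LaurentSeries Qb) _
    rw [ValThm_coe_algebraMap]
    exact hasRed_C A a

@[simp] theorem redData_ρ : (redData A M).ρ = rho A M := rfl

theorem redData_red_of_hasRed {x : FL Qb M} {z : LaurentSeries (kA A)}
    (h : HasRed A (x : LaurentSeries Qb) z) : (redData A M).red x = z := by
  have hx : x ∈ (vG A M).integer := (mem_integer_iff A M).mpr ⟨z, h⟩
  rw [KN.RedData.red, dif_pos hx]
  exact rho_eq_of_hasRed A M h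

end Fermat.Agent.GAL.KNC
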