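import Fermat.Agent.GAL.KN.Str
import Fermat.Agent.GAL.KNC.Disc

/-!
# GAL / KNC : the hypothesis `hsep` of `KN.rootClosed_of_unr` (separability of the reduction)
-/

set_option autoImplicit false
noncomputable section

namespace Fermat.Agent.GAL.KNC

open Polynomial Fermat.Agent.GAL.KL Fermat.Agent.GAL.KN

variable {L F Γ₀ : Type*} [Field L] [Field F] [Algebra L F] [LinearOrderedCommGroupWithZero Γ₀]
  {v : Valuation F Γ₀} {t : F} {k : Type*} [Field k] [PerfectField k]

/-- **(b)** `hsep` of `KN.rootClosed_of_unr`, when the reduction takes values in `k((q))` and the reduction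
of `t` has `q`-order `∓ 1`. -/
theorem hsep_of_order (D : RedData L v k (LaurentSeries k)) (hG : Gauss L v t)
    (ht : (D.red t).order = -1 ∨ (D.red t).order = 1) {d : ℕ}
    (e : Fin d → F) (M : Fin d → Matrix (Fin d) (Fin d) D.A[X])
    (_he : IsBasis L t e (BB L t)) (hON : ON L v t e)
    (O : IsOrder L t e (fun i => (M i).map D.up)) : D.dn (gram M).det ≠ 0 := by
  have O' := isOrder_red hG hON M O
  have h := det_gram_ne_zero ht O'
  rwa [gram_map, ← RingHom.mapMatrix_apply, ← RingHom.map_det] at h

end Fermat.Agent.GAL.KNC
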